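/-
Programme DS (S48), brick NEB, part 1 (helper2): the operator `V_p` at the function level.

* `Good.add/neg/sub/smul/zero` : closure properties of good functions (`W1.Forms.Good`);
* `vp p : (ℍ → ℂ) →ₗ[ℂ] (ℍ → ℂ)`, `(vp p F) τ = F (p τ)`;
  `slash_heckeDiagMatrix_eq : F ∣[k] heckeDiagMatrix p = p ^ (k - 1) • vp p F`;
* `good_vp`, `qCoeff_vp : qCoeff (vp p F) n = if p ∣ n then qCoeff F (n / p) else 0`;
* `heckeU_vp : heckeU k p (vp p F) = F` for good `F`;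
* `slashLin γ`, the slash action of `γ : SL(2, ℤ)` as a linear map, `vp_slash_of_comm`.
-/
import Mathlib
import Fermat.Agent.DS.Hecke1.QExp

set_option autoImplicit false
set_option linter.unusedSectionVars false

open Matrix.SpecialLinearGroup UpperHalfPlane CongruenceSubgroup ModularForm
open scoped MatrixGroups ModularForm OnePoint Manifold

namespace Fermat.Agent.DS.Neb.Vp

open Fermat.Agent.DS.Hecke1.Cosets Fermat.Agent.DS.Hecke1.Diamond Fermat.Agent.DS.Hecke1.HeckeT1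
open Fermat.Agent.DS.Hecke1.QExp Fermat.Agent.DS.W1.Forms ModularFormClass

/-! ### Closure properties of good functions -/

theorem Good.add {F G : ℍ → ℂ} (hF : Good F) (hG : Good G) : Good (F + G) where
  per := hF.per.add hG.per
  hol := hF.hol.add hG.hol
  bdd := Filter.BoundedAtFilter.add hF.bdd hG.bdd

theorem Good.smul {F : ℍ → ℂ} (c : ℂ) (hF : Good F) : Good (c • F) where
  per := hF.per.smul c
  hol := hF.hol.const_smul c
  bdd := Filter.BoundedAtFilter.smul c hF.bdd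

theorem Good.neg {F : ℍ → ℂ} (hF : Good F) : Good (-F) := by
  have := Good.smul (-1) hF
  simpa using this

theorem Good.sub {F G : ℍ → ℂ} (hF : Good F) (hG : Good G) : Good (F - G) := by
  rw [sub_eq_add_neg]; exact Good.add hF (Good.neg hG)

theorem qCoeff_add {F G : ℍ → ℂ} (hF : Good F) (hG : Good G) (n : ℕ) :
    qCoeff (F + G) n = qCoeff F n + qCoeff G n := by
  unfold qCoeff
  rw [qExpansion_add hF.analyticAt hG.analyticAt, map_add]

theorem qCoeff_sub {F G : ℍ → ℂ} (hF : Good F) (hG : Good G) (n : ℕ) :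
    qCoeff (F - G) n = qCoeff F n - qCoeff G n := by
  unfold qCoeff
  rw [qExpansion_sub hF.analyticAt hG.analyticAt, map_sub]

theorem qCoeff_smul {F : ℍ → ℂ} (hF : Good F) (c : ℂ) (n : ℕ) :
    qCoeff (c • F) n = c * qCoeff F n := by
  unfold qCoeff
  rw [qExpansion_smul hF.analyticAt, PowerSeries.coeff_smul, smul_eq_mul]

theorem Good.ext_qCoeff {F G : ℍ → ℂ} (hF : Good F) (hG : Good G)
    (h : ∀ n, qCoeff F n = qCoeff G n) : F = G :=
  hF.eq_of_qExpansion_eq hG (by ext n; exact h n)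

/-! ### The operator `V_p` -/

/-- `V_p`: `(vp p F) τ = F (p τ)`. -/
noncomputable def vp (p : ℕ) : (ℍ → ℂ) →ₗ[ℂ] (ℍ → ℂ) where
  toFun F τ := F (heckeDiagMatrix p • τ)
  map_add' _ _ := rfl
  map_smul' _ _ := rfl

theorem vp_apply (p : ℕ) (F : ℍ → ℂ) (τ : ℍ) : vp p F τ = F (heckeDiagMatrix p • τ) := rfl

theorem slash_heckeDiagMatrix_eq (k : ℤ) {p : ℕ} (hp : p ≠ 0) (F : ℍ → ℂ) :
    F ∣[k] heckeDiagMatrix p = ((p : ℂ) ^ (k - 1)) • vp p F := by
  funext τ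
  rw [slash_heckeDiagMatrix_apply k hp]
  rfl

theorem vp_eq_slash_one {p : ℕ} (hp : p ≠ 0) (F : ℍ → ℂ) :
    vp p F = F ∣[(1 : ℤ)] heckeDiagMatrix p := by
  rw [slash_heckeDiagMatrix_eq 1 hp]; simp

theorem vp_eq_heckeT_sub {p : ℕ} (hp : p ≠ 0) (F : ℍ → ℂ) :
    vp p F = heckeT 1 p F - heckeU 1 p F := by
  rw [vp_eq_slash_one hp, heckeT_eq_heckeU_add]; abel

theorem vp_injective (p : ℕ) : Function.Injective (vp p) := by
  intro F G h
  funext τ
  have := congrFun h ((heckeDiagMatrix p)⁻¹ • τ)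
  rwa [vp_apply, vp_apply, smul_inv_smul] at this

theorem good_vp {p : ℕ} (hp : p ≠ 0) {F : ℍ → ℂ} (hF : Good F) : Good (vp p F) := by
  rw [vp_eq_heckeT_sub hp]
  exact Good.sub (good_heckeT hF 1 p) (good_heckeU hF 1 p)

theorem qCoeff_vp {p : ℕ} (hp : p ≠ 0) {F : ℍ → ℂ} (hF : Good F) (n : ℕ) :
    qCoeff (vp p F) n = if p ∣ n then qCoeff F (n / p) else 0 := by
  rw [vp_eq_heckeT_sub hp, qCoeff_sub (good_heckeT hF 1 p) (good_heckeU hF 1 p),
    UpperHalfPlane.qCoeff_heckeT hF.per hF.hol hF.bdd 1 hp,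
    UpperHalfPlane.qCoeff_heckeU hF.per hF.hol hF.bdd 1 hp,
    coeffHeckeT_eq_coeffHeckeU_add]
  simp

theorem heckeU_vp (k : ℤ) {p : ℕ} (hp : p ≠ 0) {F : ℍ → ℂ} (hF : Good F) :
    heckeU k p (vp p F) = F := by
  have hV := good_vp hp hF
  refine Good.ext_qCoeff (good_heckeU hV k p) hF fun n => ?_
  rw [UpperHalfPlane.qCoeff_heckeU hV.per hV.hol hV.bdd k hp, coeffHeckeU_apply, qCoeff_vp hp hF,
    if_pos (dvd_mul_left p n), Nat.mul_div_cancel _ (Nat.pos_of_ne_zero hp)]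

/-! ### Slash as a linear map -/

/-- Slash by `γ : SL(2, ℤ)` as a linear endomorphism of `ℍ → ℂ`. -/
noncomputable def slashLin (k : ℤ) (γ : SL(2, ℤ)) : (ℍ → ℂ) →ₗ[ℂ] (ℍ → ℂ) where
  toFun F := F ∣[k] γ
  map_add' F G := SlashAction.add_slash k γ F G
  map_smul' c F := SL_smul_slash k γ F c

@[simp] theorem slashLin_apply (k : ℤ) (γ : SL(2, ℤ)) (F : ℍ → ℂ) :
    slashLin k γ F = F ∣[k] γ := rfl

theorem slashLin_injective (k : ℤ) (γ : SL(2, ℤ)) : Function.Injective (slashLin k γ) := by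
  intro F G h
  have := congrArg (fun H : ℍ → ℂ => H ∣[k] γ⁻¹) h
  simpa [← SlashAction.slash_mul] using this

/-- If `diag(p,1) γ = γ' diag(p,1)` then `V_p (F ∣ γ') = (V_p F) ∣ γ`. -/
theorem vp_slash_of_comm (k : ℤ) {p : ℕ} (hp : p ≠ 0) {γ γ' : SL(2, ℤ)}
    (h : heckeDiagMatrix p * mapGL ℝ γ = mapGL ℝ γ' * heckeDiagMatrix p) (F : ℍ → ℂ) :
    vp p (F ∣[k] γ') = (vp p F) ∣[k] γ := by
  have hc : ((p : ℂ) ^ (k - 1)) ≠ 0 := zpow_ne_zero _ (Nat.cast_ne_zero.mpr hp)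
  have h1 : (F ∣[k] γ') ∣[k] heckeDiagMatrix p = (F ∣[k] heckeDiagMatrix p) ∣[k] γ := by
    rw [← slash_mapGL F γ', ← SlashAction.slash_mul, ← h, SlashAction.slash_mul, slash_mapGL]
  rw [slash_heckeDiagMatrix_eq k hp, slash_heckeDiagMatrix_eq k hp, SL_smul_slash] at h1
  exact smul_right_injective _ hc h1

end Fermat.Agent.DS.Neb.Vp
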