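/-
Programme DS (S48), brick NEB, part 2 (helper2): for a prime `p ∤ N`, a cusp form `h ∈ S_k(Γ₁(N))`
such that `τ ↦ h (p τ)` is again in `S_k(Γ₁(N))` vanishes.

Proof.  `X = {F ∈ S | V_p F ∈ S}` (`S` = the finite-dimensional space of functions underlying
`S_k(Γ₁(N))`).  With `g, g' ∈ Γ₀(N)` such that `diag(p,1) g = g' diag(p,1)` and lower right entries
`≡ p mod N`, the injective operator `Φ = V_p ∘ (∣ g')` satisfies `Φ F = (V_p F) ∣ g` and maps `X` to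
`X` (because `T_p (V_p F) = F + p^(k-1) V_p ((V_p F) ∣ g)`), hence is bijective on `X`; so every
element of `X` is of the form `V_p F₁` with `F₁ ∈ X` and its `q`-expansion is supported on
multiples of `p ^ n` for all `n`.
-/
import Mathlib
import Fermat.Agent.DS.Neb.Vp
import Fermat.Agent.DS.Conj.QSpace

set_option autoImplicit false
set_option linter.unusedSectionVars false

open Matrix.SpecialLinearGroup UpperHalfPlane CongruenceSubgroup ModularForm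
open scoped MatrixGroups ModularForm OnePoint Manifold

namespace Fermat.Agent.DS.Neb.Core

open Fermat.Agent.DS.Hecke1.Cosets Fermat.Agent.DS.Hecke1.Diamond Fermat.Agent.DS.Hecke1.HeckeT1
open Fermat.Agent.DS.Hecke1.QExp Fermat.Agent.DS.W1.Forms ModularFormClass
open Fermat.Agent.DS.Neb.Vp

variable {N : ℕ} [NeZero N] {k : ℤ} {p : ℕ}

local notation "Γ1N" => ((Gamma1 N : Subgroup SL(2, ℤ)) : Subgroup (GL (Fin 2) ℝ))

/-! ### The special pair -/

/-- For every unit `d` mod `N` there are `g, g' ∈ Γ₀(N)` with lower right entries `≡ d` and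
`diag(p,1) g = g' diag(p,1)`. -/
theorem exists_pair (hp : p ≠ 0) (d : (ZMod N)ˣ) :
    ∃ g g' : SL(2, ℤ), g ∈ Gamma0 N ∧ g' ∈ Gamma0 N ∧ lr N g = (d : ZMod N) ∧
      lr N g' = (d : ZMod N) ∧
      heckeDiagMatrix p * mapGL ℝ g = mapGL ℝ g' * heckeDiagMatrix p := by
  have : NeZero p := ⟨hp⟩
  have hdvd : N ∣ N * p := dvd_mul_right N p
  obtain ⟨d', hd'⟩ := ZMod.unitsMap_surjective hdvd d
  obtain ⟨γ, hγ, hlr⟩ := exists_mem_Gamma0_lr d'
  have h10 : ((N * p : ℕ) : ℤ) ∣ γ 1 0 :=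
    (ZMod.intCast_zmod_eq_zero_iff_dvd _ _).mp (Gamma0_mem.mp hγ)
  obtain ⟨e', he'⟩ := h10
  have he : γ 1 0 = (p : ℤ) * ((N : ℤ) * e') := by rw [he']; push_cast; ring
  obtain ⟨g', hg'10, hg'11, hmul⟩ := heckeDiagMatrix_mul_of_eq' hp γ ((N : ℤ) * e') he
  have hcast : ((γ 1 1 : ℤ) : ZMod N) = (d : ZMod N) := by
    have h1 : ((γ 1 1 : ℤ) : ZMod (N * p)) = (d' : ZMod (N * p)) := hlr
    have h2 := congrArg (ZMod.castHom hdvd (ZMod N)) h1
    rw [map_intCast] at h2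
    rw [h2, ← hd']
    rfl
  refine ⟨γ, g', ?_, ?_, hcast, ?_, hmul⟩
  · rw [Gamma0_mem, he]; push_cast; simp
  · rw [Gamma0_mem, hg'10]; push_cast; simp
  · show ((g' 1 1 : ℤ) : ZMod N) = _
    rw [hg'11]; exact hcast

/-! ### The space of functions underlying `S_k(Γ₁(N))` -/

variable (N k) in
/-- The coercion to functions, as a linear map. -/
noncomputable def coeHom : CuspForm Γ1N k →ₗ[ℂ] (ℍ → ℂ) where
  toFun f := f
  map_add' _ _ := rfl
  map_smul' _ _ := rfl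

@[simp] theorem coeHom_apply (f : CuspForm Γ1N k) : coeHom N k f = (f : ℍ → ℂ) := rfl

variable (N k) in
/-- The space of functions underlying `S_k(Γ₁(N))`. -/
noncomputable def Simg : Submodule ℂ (ℍ → ℂ) :=
  LinearMap.range (coeHom N k)

theorem mem_Simg_iff {F : ℍ → ℂ} : F ∈ Simg N k ↔ ∃ h : CuspForm Γ1N k, (h : ℍ → ℂ) = F :=
  Iff.rfl

theorem coe_mem_Simg (h : CuspForm Γ1N k) : (h : ℍ → ℂ) ∈ Simg N k := ⟨h, rfl⟩

instance finiteDimensional_Simg : FiniteDimensional ℂ (Simg N k) := by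
  have : FiniteDimensional ℂ (CuspForm Γ1N k) :=
    Fermat.Agent.DS.Conj.QSpace.finiteDimensional_cuspForm N k
  unfold Simg
  infer_instance

variable (N k p) in
/-- `X = {F ∈ S | V_p F ∈ S}`. -/
noncomputable def X : Submodule ℂ (ℍ → ℂ) :=
  Simg N k ⊓ (Simg N k).comap (vp p)

theorem mem_X_iff {F : ℍ → ℂ} : F ∈ X N k p ↔ F ∈ Simg N k ∧ vp p F ∈ Simg N k := Iff.rfl

instance finiteDimensional_X : FiniteDimensional ℂ (X N k p) := by
  unfold X
  infer_instance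

/-! ### The operator `Φ` -/

theorem phi_mem_X (hp : p.Prime) (hpN : ¬ p ∣ N) {g g' : SL(2, ℤ)} (hg : g ∈ Gamma0 N)
    (hlr : lr N g = (p : ZMod N))
    (hmul : heckeDiagMatrix p * mapGL ℝ g = mapGL ℝ g' * heckeDiagMatrix p)
    {F : ℍ → ℂ} (hF : F ∈ X N k p) : vp p (F ∣[k] g') ∈ X N k p := by
  obtain ⟨⟨h, rfl⟩, ⟨G, hG⟩⟩ := hF
  change (G : ℍ → ℂ) = vp p (h : ℍ → ℂ) at hG
  show vp p ((h : ℍ → ℂ) ∣[k] g') ∈ X N k p
  have hp0 : p ≠ 0 := hp.ne_zero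
  have hc : ((p : ℂ) ^ (k - 1)) ≠ 0 := zpow_ne_zero _ (Nat.cast_ne_zero.mpr hp0)
  have hΦ : vp p ((h : ℍ → ℂ) ∣[k] g') = (G : ℍ → ℂ) ∣[k] g := by
    rw [vp_slash_of_comm k hp0 hmul]
    exact congrArg (fun H : ℍ → ℂ => H ∣[k] g) hG.symm
  refine ⟨?_, ?_⟩
  · rw [hΦ]
    exact ⟨slashCusp g hg G, rfl⟩
  · show vp p (vp p ((h : ℍ → ℂ) ∣[k] g')) ∈ Simg N k
    rw [hΦ]
    -- `T_p G = U_p G + (G ∣ g) ∣ diag(p,1) = h + p^(k-1) V_p (G ∣ g)`
    have hT : (heckeT1 hp hpN G : ℍ → ℂ) =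
        (h : ℍ → ℂ) + ((p : ℂ) ^ (k - 1)) • vp p ((G : ℍ → ℂ) ∣[k] g) := by
      rw [coe_heckeT1_of_lr hp hpN hg hlr, heckeT1Fun, slash_heckeDiagMatrix_eq k hp0]
      have hU : heckeU k p (G : ℍ → ℂ) = (h : ℍ → ℂ) := by
        have := heckeU_vp k hp0 (good_of_form h)
        rwa [← (show (G : ℍ → ℂ) = vp p (h : ℍ → ℂ) from hG)] at this
      rw [hU]
    refine ⟨((p : ℂ) ^ (k - 1))⁻¹ • (heckeT1 hp hpN G - h), ?_⟩
    show ((p : ℂ) ^ (k - 1))⁻¹ • ((heckeT1 hp hpN G : ℍ → ℂ) - (h : ℍ → ℂ)) = _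
    rw [hT, add_sub_cancel_left, smul_smul, inv_mul_cancel₀ hc, one_smul]

/-- Elements of `X` have `q`-expansions supported on multiples of `p ^ n`, for every `n`. -/
theorem qCoeff_eq_zero_of_mem_X (hp : p.Prime) (hpN : ¬ p ∣ N) (n : ℕ) :
    ∀ F ∈ X N k p, ∀ m : ℕ, ¬ p ^ n ∣ m → qCoeff F m = 0 := by
  have hp0 : p ≠ 0 := hp.ne_zero
  obtain ⟨g, g', hg, hg', hlr, hlr', hmul⟩ := exists_pair (N := N) hp0 (unitP hp hpN)
  rw [coe_unitP] at hlr hlr'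
  -- the operator `Φ`
  set Φ : (ℍ → ℂ) →ₗ[ℂ] (ℍ → ℂ) := vp p ∘ₗ slashLin k g' with hΦdef
  have hΦX : ∀ F ∈ X N k p, Φ F ∈ X N k p := fun F hF => phi_mem_X hp hpN hg hlr hmul hF
  have hΦinj : Function.Injective Φ := (vp_injective p).comp (slashLin_injective k g')
  have hrinj : Function.Injective (Φ.restrict hΦX) := by
    intro a b hab
    apply Subtype.ext
    apply hΦinj
    have := congrArg Subtype.val hab
    simpa using this
  have hrsurj : Function.Surjective (Φ.restrict hΦX) :=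
    LinearMap.injective_iff_surjective.mp hrinj
  induction n with
  | zero => intro F _ m hm; exact absurd (by simp) hm
  | succ n ih =>
    intro F hF m hm
    obtain ⟨⟨F₁, hF₁⟩, hF₁F⟩ := hrsurj ⟨F, hF⟩
    have hFeq : F = vp p (F₁ ∣[k] g') := by
      have := congrArg Subtype.val hF₁F
      simpa [hΦdef] using this.symm
    -- `F₁ ∣ g' ∈ X`
    have hF₁' : F₁ ∣[k] g' ∈ X N k p := by
      obtain ⟨h₁, rfl⟩ := hF₁.1
      refine ⟨⟨slashCusp g' hg' h₁, rfl⟩, ?_⟩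
      show vp p ((coeHom N k h₁) ∣[k] g') ∈ Simg N k
      rw [← hFeq]; exact hF.1
    have hgood : Good (F₁ ∣[k] g') := by
      obtain ⟨h₂, hh₂⟩ := hF₁'.1
      rw [← hh₂]; exact good_of_form h₂
    rw [hFeq, qCoeff_vp hp0 hgood]
    split_ifs with hpm
    · apply ih _ hF₁'
      intro hdvd
      apply hm
      obtain ⟨c, rfl⟩ := hpm
      rw [Nat.mul_div_cancel_left _ hp.pos] at hdvd
      rw [pow_succ']
      exact Nat.mul_dvd_mul_left p hdvd
    · rfl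

/-- **NEB core**: if `h` and `τ ↦ h (p τ)` are both cusp forms on `Γ₁(N)`, `p ∤ N` prime,
then `h = 0`. -/
theorem eq_zero_of_vp_mem (hp : p.Prime) (hpN : ¬ p ∣ N) (h G : CuspForm Γ1N k)
    (hG : (G : ℍ → ℂ) = vp p (h : ℍ → ℂ)) : h = 0 := by
  have hX : (h : ℍ → ℂ) ∈ X N k p := ⟨coe_mem_Simg h, ⟨G, hG⟩⟩
  apply ext_qCoeff
  intro m
  have h0 : qCoeff ((0 : CuspForm Γ1N k) : ℍ → ℂ) m = 0 := by
    have : ((0 : CuspForm Γ1N k) : ℍ → ℂ) = 0 := rfl
    rw [this]; unfold qCoeff; rw [qExpansion_zero]; simp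
  rw [h0]
  rcases Nat.eq_zero_or_pos m with rfl | hm
  · exact CuspFormClass.qExpansion_coeff_zero h one_pos
      (Fermat.Agent.DS.Rankin.CuspBound.one_mem_strictPeriods_Gamma1 N)
  · refine qCoeff_eq_zero_of_mem_X hp hpN m _ hX m ?_
    intro hdvd
    have := Nat.le_of_dvd hm hdvd
    exact absurd this (not_le.mpr (Nat.lt_pow_self hp.one_lt))

end Fermat.Agent.DS.Neb.Core
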