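/-
Programme DS (S48), brick NEB, part 3 (helper2): the nebentypus of a formal eigenform.

If `f ∈ S_1(Γ₁(N))` satisfies the formal Hecke relations
  `a_{pn} + ε(p) [p ∣ n] a_{n/p} = a_p a_n`   (all primes `p ∤ N`, all `n`)
(the hypothesis `hT` of the frozen statement S48; NO normalisation `a_1 = 1` needed), then
* `diamond d f = ε d • f` for every `d : (ZMod N)ˣ`  (`diamond_eq`);
* `f ∣[1] γ = ε (lr N γ) • f` for every `γ ∈ Γ₀(N)`  (`slash_eq`);
* `heckeT1 hp hpN f = qCoeff f p • f` for the true Hecke operators  (`heckeT1_eq`).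
-/
import Mathlib
import Fermat.Agent.DS.Neb.Core
import Fermat.Agent.DS.Iface

set_option autoImplicit false
set_option linter.unusedSectionVars false

open Matrix.SpecialLinearGroup UpperHalfPlane CongruenceSubgroup ModularForm
open scoped MatrixGroups ModularForm OnePoint Manifold

namespace Fermat.Agent.DS.Neb.Main

open Fermat.Agent.DS.Hecke1.Cosets Fermat.Agent.DS.Hecke1.Diamond Fermat.Agent.DS.Hecke1.HeckeT1
open Fermat.Agent.DS.Hecke1.QExp Fermat.Agent.DS.W1.Forms ModularFormClass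
open Fermat.Agent.DS.Neb.Vp Fermat.Agent.DS.Neb.Core

variable {N : ℕ} [NeZero N]

local notation "Γ1N" => ((Gamma1 N : Subgroup SL(2, ℤ)) : Subgroup (GL (Fin 2) ℝ))

/-- The formal Hecke relations at primes `p ∤ N` (hypothesis `hT` of S48). -/
def FormalHecke (ε : DirichletCharacter ℂ N) (f : CuspForm Γ1N 1) : Prop :=
  ∀ p : ℕ, p.Prime → ¬ p ∣ N → ∀ n : ℕ,
    qCoeff f (p * n) + ε (p : ZMod N) * (if p ∣ n then qCoeff f (n / p) else 0) =
      qCoeff f p * qCoeff f n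

theorem formalHecke_of_isEigen {ε : DirichletCharacter ℂ N} {f : CuspForm Γ1N 1}
    (h : Iface.IsEigen N ε f) : FormalHecke ε f := h.hecke

theorem qCoeff_coe_sub {k : ℤ} (a b : CuspForm Γ1N k) (n : ℕ) :
    qCoeff ((a - b : CuspForm Γ1N k) : ℍ → ℂ) n = qCoeff a n - qCoeff b n := by
  rw [FunLike.coe_sub, qCoeff_sub (good_of_form a) (good_of_form b)]

theorem qCoeff_coe_smul {k : ℤ} (c : ℂ) (a : CuspForm Γ1N k) (n : ℕ) :
    qCoeff ((c • a : CuspForm Γ1N k) : ℍ → ℂ) n = c * qCoeff a n := by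
  rw [FunLike.coe_smul, qCoeff_smul (good_of_form a)]

/-- `⟨p⟩ f = ε(p) f` for primes `p ∤ N`. -/
theorem diamond_prime_eq {ε : DirichletCharacter ℂ N} {f : CuspForm Γ1N 1}
    (hT : FormalHecke ε f) {p : ℕ} (hp : p.Prime) (hpN : ¬ p ∣ N) :
    diamond (unitP hp hpN) f = ε (p : ZMod N) • f := by
  have hp0 : p ≠ 0 := hp.ne_zero
  set h₀ : CuspForm Γ1N 1 := diamond (unitP hp hpN) f - ε (p : ZMod N) • f with hh₀
  set G₀ : CuspForm Γ1N 1 := heckeT1 hp hpN f - qCoeff f p • f with hG₀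
  have key : (G₀ : ℍ → ℂ) = vp p (h₀ : ℍ → ℂ) := by
    refine Good.ext_qCoeff (good_of_form G₀) (good_vp hp0 (good_of_form h₀)) fun n => ?_
    rw [qCoeff_vp hp0 (good_of_form h₀), hG₀, qCoeff_coe_sub, qCoeff_coe_smul, qCoeff_heckeT1]
    have hTn := hT p hp hpN n
    rw [mul_comm p n] at hTn
    split_ifs with hpn
    · rw [if_pos hpn] at hTn
      rw [hh₀, qCoeff_coe_sub, qCoeff_coe_smul]
      simp only [sub_self, zpow_zero, one_mul]
      linear_combination hTn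
    · rw [if_neg hpn, mul_zero, add_zero] at hTn
      rw [add_zero]
      linear_combination hTn
  have := eq_zero_of_vp_mem hp hpN h₀ G₀ key
  exact sub_eq_zero.mp this

/-- **Nebentypus**: `⟨d⟩ f = ε(d) f` for all `d`. -/
theorem diamond_eq {ε : DirichletCharacter ℂ N} {f : CuspForm Γ1N 1}
    (hT : FormalHecke ε f) (d : (ZMod N)ˣ) :
    diamond d f = ε (d : ZMod N) • f := by
  obtain ⟨p, hpgt, hp, hpd⟩ := Nat.forall_exists_prime_gt_and_eq_mod d.isUnit N
  have hpN : ¬ p ∣ N := fun hdvd =>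
    absurd (Nat.le_of_dvd (Nat.pos_of_ne_zero (NeZero.ne N)) hdvd) (not_le.mpr hpgt)
  have hd : unitP hp hpN = d := Units.ext (by rw [coe_unitP, hpd])
  rw [← hd, coe_unitP]
  exact diamond_prime_eq hT hp hpN

/-- The lower right entry of an element of `Γ₀(N)`, as a unit mod `N`. -/
noncomputable def lrUnit {γ : SL(2, ℤ)} (hγ : γ ∈ Gamma0 N) : (ZMod N)ˣ :=
  Units.mkOfMulEqOne (lr N γ) (lr N γ⁻¹) (lr_mul_inv_self hγ)

@[simp] theorem coe_lrUnit {γ : SL(2, ℤ)} (hγ : γ ∈ Gamma0 N) :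
    ((lrUnit hγ : (ZMod N)ˣ) : ZMod N) = lr N γ := rfl

/-- **Nebentypus**, slash form: `f ∣[1] γ = ε(d_γ) f` for `γ ∈ Γ₀(N)`. -/
theorem slash_eq {ε : DirichletCharacter ℂ N} {f : CuspForm Γ1N 1}
    (hT : FormalHecke ε f) {γ : SL(2, ℤ)} (hγ : γ ∈ Gamma0 N) :
    (f : ℍ → ℂ) ∣[(1 : ℤ)] γ = ε (lr N γ) • (f : ℍ → ℂ) := by
  have h1 := coe_diamond (lrUnit hγ) hγ rfl f
  rw [← h1, diamond_eq hT, coe_lrUnit]
  rfl

/-- `f` is an eigenvector of the true Hecke operators: `T_p f = a_p f`. -/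
theorem heckeT1_eq {ε : DirichletCharacter ℂ N} {f : CuspForm Γ1N 1}
    (hT : FormalHecke ε f) {p : ℕ} (hp : p.Prime) (hpN : ¬ p ∣ N) :
    heckeT1 hp hpN f = qCoeff f p • f := by
  apply ext_qCoeff
  intro n
  rw [qCoeff_heckeT1, diamond_prime_eq hT hp hpN, qCoeff_coe_smul, qCoeff_coe_smul]
  have hTn := hT p hp hpN n
  rw [mul_comm p n] at hTn
  split_ifs with hpn
  · rw [if_pos hpn] at hTn
    simp only [sub_self, zpow_zero, one_mul]
    linear_combination hTn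
  · rw [if_neg hpn, mul_zero, add_zero] at hTn
    rw [add_zero]
    exact hTn

/-- Versions for `Iface.IsEigen`. -/
theorem diamond_eq_of_isEigen {ε : DirichletCharacter ℂ N} {f : CuspForm Γ1N 1}
    (h : Iface.IsEigen N ε f) (d : (ZMod N)ˣ) :
    diamond d f = ε (d : ZMod N) • f := diamond_eq (formalHecke_of_isEigen h) d

theorem slash_eq_of_isEigen {ε : DirichletCharacter ℂ N} {f : CuspForm Γ1N 1}
    (h : Iface.IsEigen N ε f) {γ : SL(2, ℤ)} (hγ : γ ∈ Gamma0 N) :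
    (f : ℍ → ℂ) ∣[(1 : ℤ)] γ = ε (lr N γ) • (f : ℍ → ℂ) := slash_eq (formalHecke_of_isEigen h) hγ

theorem heckeT1_eq_of_isEigen {ε : DirichletCharacter ℂ N} {f : CuspForm Γ1N 1}
    (h : Iface.IsEigen N ε f) {p : ℕ} (hp : p.Prime) (hpN : ¬ p ∣ N) :
    heckeT1 hp hpN f = qCoeff f p • f := heckeT1_eq (formalHecke_of_isEigen h) hp hpN

end Fermat.Agent.DS.Neb.Main
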