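/-
Programme DS (S48), brick NEB' (helper2; W1-LIFT plan v1, item L1): nebentypus for formal
eigenvectors with PRESCRIBED eigenvalues, possibly at a higher level.

* `FormalHeckeA ε a f` : `a_{pn}(f) + ε(p) [p ∣ n] a_{n/p}(f) = a(p) a_n(f)` for all primes `p ∤ N`
  (no relation between `a p` and the coefficients of `f` is assumed; `f` may have `a_1(f) = 0`);
  then `diamond d f = ε d • f`, `f ∣[1] γ = ε (lr N γ) • f` (`γ ∈ Γ₀(N)`), `T_p f = a(p) f`.
* level change: `ε` a character mod `N`, `N ∣ N₁`, `h ∈ S₁(Γ₁(N₁))` with the formal relations for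
  all primes `p ∤ N₁` (values `ε (p : ZMod N)`): `diamond d h = ε (d mod N) • h` for `d : (ZMod N₁)ˣ`
  and `T_p h = a(p) h`.
-/
import Mathlib
import Fermat.Agent.DS.Neb.Main

set_option autoImplicit false
set_option linter.unusedSectionVars false

open Matrix.SpecialLinearGroup UpperHalfPlane CongruenceSubgroup ModularForm
open scoped MatrixGroups ModularForm OnePoint Manifold

namespace Fermat.Agent.DS.Neb.General

open Fermat.Agent.DS.Hecke1.Cosets Fermat.Agent.DS.Hecke1.Diamond Fermat.Agent.DS.Hecke1.HeckeT1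
open Fermat.Agent.DS.Hecke1.QExp Fermat.Agent.DS.W1.Forms ModularFormClass
open Fermat.Agent.DS.Neb.Vp Fermat.Agent.DS.Neb.Core Fermat.Agent.DS.Neb.Main

section SameLevel

variable {N : ℕ} [NeZero N]

local notation "Γ1N" => ((Gamma1 N : Subgroup SL(2, ℤ)) : Subgroup (GL (Fin 2) ℝ))

/-- The formal Hecke relations at primes `p ∤ N` with prescribed eigenvalues `a p`. -/
def FormalHeckeA (ε : DirichletCharacter ℂ N) (a : ℕ → ℂ) (f : CuspForm Γ1N 1) : Prop :=
  ∀ p : ℕ, p.Prime → ¬ p ∣ N → ∀ n : ℕ,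
    qCoeff f (p * n) + ε (p : ZMod N) * (if p ∣ n then qCoeff f (n / p) else 0) =
      a p * qCoeff f n

theorem formalHeckeA_of_formalHecke {ε : DirichletCharacter ℂ N} {f : CuspForm Γ1N 1}
    (h : FormalHecke ε f) : FormalHeckeA ε (fun p => qCoeff f p) f := h

/-- `⟨p⟩ f = ε(p) f` for primes `p ∤ N`. -/
theorem diamond_prime_eq {ε : DirichletCharacter ℂ N} {a : ℕ → ℂ} {f : CuspForm Γ1N 1}
    (hT : FormalHeckeA ε a f) {p : ℕ} (hp : p.Prime) (hpN : ¬ p ∣ N) :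
    diamond (unitP hp hpN) f = ε (p : ZMod N) • f := by
  have hp0 : p ≠ 0 := hp.ne_zero
  set h₀ : CuspForm Γ1N 1 := diamond (unitP hp hpN) f - ε (p : ZMod N) • f with hh₀
  set G₀ : CuspForm Γ1N 1 := heckeT1 hp hpN f - a p • f with hG₀
  have key : (G₀ : ℍ → ℂ) = vp p (h₀ : ℍ → ℂ) := by
    refine Good.ext_qCoeff (good_of_form G₀) (good_vp hp0 (good_of_form h₀)) fun n => ?_
    rw [qCoeff_vp hp0 (good_of_form h₀), hG₀, qCoeff_coe_sub, qCoeff_coe_smul, qCoeff_heckeT1]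
    have hTn := hT p hp hpN n
    rw [mul_comm p n] at hTn
    split_ifs with hpn
    · rw [if_pos hpn] at hTn
      rw [hh₀, qCoeff_coe_sub, qCoeff_coe_smul]
      simp only [sub_self, zpow_zero, one_mul]
      linear_combination hTn
    · rw [if_neg hpn, mul_zero, add_zero] at hTn
      rw [add_zero]
      linear_combination hTn
  have := eq_zero_of_vp_mem hp hpN h₀ G₀ key
  exact sub_eq_zero.mp this

/-- **Nebentypus**: `⟨d⟩ f = ε(d) f` for all `d`. -/
theorem diamond_eq {ε : DirichletCharacter ℂ N} {a : ℕ → ℂ} {f : CuspForm Γ1N 1}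
    (hT : FormalHeckeA ε a f) (d : (ZMod N)ˣ) :
    diamond d f = ε (d : ZMod N) • f := by
  obtain ⟨p, hpgt, hp, hpd⟩ := Nat.forall_exists_prime_gt_and_eq_mod d.isUnit N
  have hpN : ¬ p ∣ N := fun hdvd =>
    absurd (Nat.le_of_dvd (Nat.pos_of_ne_zero (NeZero.ne N)) hdvd) (not_le.mpr hpgt)
  have hd : unitP hp hpN = d := Units.ext (by rw [coe_unitP, hpd])
  rw [← hd, coe_unitP]
  exact diamond_prime_eq hT hp hpN

/-- **Nebentypus**, slash form. -/
theorem slash_eq {ε : DirichletCharacter ℂ N} {a : ℕ → ℂ} {f : CuspForm Γ1N 1}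
    (hT : FormalHeckeA ε a f) {γ : SL(2, ℤ)} (hγ : γ ∈ Gamma0 N) :
    (f : ℍ → ℂ) ∣[(1 : ℤ)] γ = ε (lr N γ) • (f : ℍ → ℂ) := by
  have h1 := coe_diamond (lrUnit hγ) hγ rfl f
  rw [← h1, diamond_eq hT, coe_lrUnit]
  rfl

/-- `T_p f = a(p) f` for the true Hecke operators. -/
theorem heckeT1_eq {ε : DirichletCharacter ℂ N} {a : ℕ → ℂ} {f : CuspForm Γ1N 1}
    (hT : FormalHeckeA ε a f) {p : ℕ} (hp : p.Prime) (hpN : ¬ p ∣ N) :
    heckeT1 hp hpN f = a p • f := by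
  apply ext_qCoeff
  intro n
  rw [qCoeff_heckeT1, diamond_prime_eq hT hp hpN, qCoeff_coe_smul, qCoeff_coe_smul]
  have hTn := hT p hp hpN n
  rw [mul_comm p n] at hTn
  split_ifs with hpn
  · rw [if_pos hpn] at hTn
    simp only [sub_self, zpow_zero, one_mul]
    linear_combination hTn
  · rw [if_neg hpn, mul_zero, add_zero] at hTn
    rw [add_zero]
    exact hTn

end SameLevel

/-! ### A character of lower level -/

section LevelChange

variable {N N₁ : ℕ} [NeZero N] [NeZero N₁]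

local notation "Γ1N₁" => ((Gamma1 N₁ : Subgroup SL(2, ℤ)) : Subgroup (GL (Fin 2) ℝ))

/-- The formal Hecke relations at level `N₁` for a character `ε` mod `N ∣ N₁`. -/
def FormalHeckeLevel (ε : DirichletCharacter ℂ N) (a : ℕ → ℂ) (h : CuspForm Γ1N₁ 1) : Prop :=
  ∀ p : ℕ, p.Prime → ¬ p ∣ N₁ → ∀ n : ℕ,
    qCoeff h (p * n) + ε (p : ZMod N) * (if p ∣ n then qCoeff h (n / p) else 0) =
      a p * qCoeff h n

theorem changeLevel_natCast (hN : N ∣ N₁) (ε : DirichletCharacter ℂ N) {p : ℕ}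
    (hp : p.Prime) (hpN₁ : ¬ p ∣ N₁) :
    DirichletCharacter.changeLevel hN ε (p : ZMod N₁) = ε (p : ZMod N) := by
  have hu : IsUnit ((p : ℕ) : ZMod N₁) :=
    (ZMod.isUnit_iff_coprime p N₁).mpr ((Nat.Prime.coprime_iff_not_dvd hp).mpr hpN₁)
  have h1 := DirichletCharacter.changeLevel_eq_cast_of_dvd ε hN hu.unit
  rw [IsUnit.unit_spec] at h1
  rw [h1, ZMod.cast_natCast hN]

theorem formalHeckeA_of_level (hN : N ∣ N₁) {ε : DirichletCharacter ℂ N} {a : ℕ → ℂ}
    {h : CuspForm Γ1N₁ 1} (hT : FormalHeckeLevel ε a h) :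
    FormalHeckeA (DirichletCharacter.changeLevel hN ε) a h := by
  intro p hp hpN₁ n
  rw [changeLevel_natCast hN ε hp hpN₁]
  exact hT p hp hpN₁ n

/-- **NEB'**: `⟨d⟩ h = ε(d mod N) h` for `d : (ZMod N₁)ˣ`. -/
theorem diamond_eq_of_level (hN : N ∣ N₁) {ε : DirichletCharacter ℂ N} {a : ℕ → ℂ}
    {h : CuspForm Γ1N₁ 1} (hT : FormalHeckeLevel ε a h) (d : (ZMod N₁)ˣ) :
    diamond d h = ε ((ZMod.unitsMap hN d : (ZMod N)ˣ) : ZMod N) • h := by
  rw [diamond_eq (formalHeckeA_of_level hN hT) d,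
    DirichletCharacter.changeLevel_eq_cast_of_dvd ε hN d]
  rfl

/-- **NEB'**: `T_p h = a(p) h` for primes `p ∤ N₁`. -/
theorem heckeT1_eq_of_level (hN : N ∣ N₁) {ε : DirichletCharacter ℂ N} {a : ℕ → ℂ}
    {h : CuspForm Γ1N₁ 1} (hT : FormalHeckeLevel ε a h) {p : ℕ} (hp : p.Prime)
    (hpN₁ : ¬ p ∣ N₁) : heckeT1 hp hpN₁ h = a p • h :=
  heckeT1_eq (formalHeckeA_of_level hN hT) hp hpN₁

end LevelChange

end Fermat.Agent.DS.Neb.General
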